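import Fermat.Agent.AxSchanuel.Differential
import Mathlib.FieldTheory.Differential.Basic
import Mathlib.RingTheory.Derivation.ToSquareZero
import Mathlib.RingTheory.Polynomial.UniqueFactorization
import Mathlib.Algebra.Polynomial.Derivative

/-!
# Two equations without rational solutions
-/

set_option autoImplicit false

noncomputable section

open Polynomial Fermat.Agent.AxSchanuel
open scoped Differential

namespace Fermat.Agent.ElementaryIntegration

universe u v

variable {C : Type u} {F : Type v} [Field C] [CharZero C] [Field F] [Differential F] [Algebra C F]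
  {x : F} (hCc : ∀ c : C, (algebraMap C F c)′ = 0) (hx : x′ = 1)

include hCc in
/-- The derivation over the constants. -/
theorem exists_derivation : ∃ δ : Derivation C F F, ∀ a, δ a = a′ :=
  ⟨derivationOfConst (fun a => a′) (fun a b => map_add _ a b)
    (fun a b => by rw [Derivation.leibniz, smul_eq_mul, smul_eq_mul]) hCc, fun _ => rfl⟩

include hCc hx in
theorem transcendental_var : Transcendental C x := fun h => by
  obtain ⟨δ, hδ⟩ := exists_derivation hCc
  have := constant_of_isAlgebraic δ h
  rw [hδ, hx] at this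
  exact one_ne_zero this

include hCc hx in
theorem deriv_aeval_var (p : C[X]) : (aeval x p)′ = aeval x (derivative p) := by
  obtain ⟨δ, hδ⟩ := exists_derivation hCc
  rw [← hδ, Derivation.map_aeval, hδ, hx, smul_eq_mul, mul_one]

variable (hgen : IntermediateField.adjoin C {x} = ⊤)

include hCc hx hgen in
theorem exists_fraction (f : F) :
    ∃ p q : C[X], q ≠ 0 ∧ f = aeval x p / aeval x q ∧ IsCoprime p q := by
  classical
  have hex : ∃ d, ∃ p q : C[X], q ≠ 0 ∧ f = aeval x p / aeval x q ∧ q.natDegree = d := by
    have hf : f ∈ IntermediateField.adjoin C {x} := hgen ▸ IntermediateField.mem_top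
    obtain ⟨r, s, h⟩ := (IntermediateField.mem_adjoin_simple_iff C f).1 hf
    by_cases hs : s = 0
    · refine ⟨_, 0, 1, one_ne_zero, ?_, rfl⟩
      simp [h, hs]
    · exact ⟨_, r, s, hs, h, rfl⟩
  obtain ⟨p, q, hq, hf, hd⟩ := Nat.find_spec hex
  refine ⟨p, q, hq, hf, isCoprime_of_dvd p q (fun h => hq h.2) fun g hg hg0 hgp hgq => ?_⟩
  obtain ⟨p₁, rfl⟩ := hgp
  obtain ⟨q₁, rfl⟩ := hgq
  have hq₁ : q₁ ≠ 0 := right_ne_zero_of_mul hq
  have hgd : 0 < g.natDegree := Nat.pos_of_ne_zero fun h0 => hg (isUnit_iff.2 ⟨g.coeff 0,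
    isUnit_iff_ne_zero.2 fun h1 => hg0 (by rw [eq_C_of_natDegree_eq_zero h0, h1, C_0]),
    (eq_C_of_natDegree_eq_zero h0).symm⟩)
  refine Nat.find_min hex (m := q₁.natDegree) ?_ ⟨p₁, q₁, hq₁, ?_, rfl⟩
  · rw [← hd, natDegree_mul hg0 hq₁]
    omega
  · rw [hf, map_mul, map_mul, mul_div_mul_left]
    exact fun h => hg0 ((transcendental_iff.1 (transcendental_var hCc hx)) g h)

include hCc hx hgen in
/-- `f' + k x f = c` for a fraction in lowest terms. -/
theorem fraction_equation {f : F} (k c : C)
    (h : f′ + algebraMap C F k * x * f = algebraMap C F c) :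
    ∃ p q : C[X], q ≠ 0 ∧ f = aeval x p / aeval x q ∧ IsCoprime p q ∧
      derivative p * q - p * derivative q + Polynomial.C k * X * p * q =
        Polynomial.C c * q ^ 2 := by
  obtain ⟨p, q, hq, hf, hpq⟩ := exists_fraction hCc hx hgen f
  have htr := transcendental_iff.1 (transcendental_var hCc hx)
  have hq' : aeval x q ≠ 0 := fun h0 => hq (htr q h0)
  refine ⟨p, q, hq, hf, hpq, sub_eq_zero.1 (htr _ ?_)⟩
  rw [hf, Derivation.leibniz_div, deriv_aeval_var hCc hx, deriv_aeval_var hCc hx] at h
  simp only [smul_eq_mul, inv_zpow, zpow_neg] at h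
  simp only [map_sub, map_add, map_mul, map_pow, aeval_C, aeval_X]
  field_simp [hq'] at h
  linear_combination h

include hCc hx hgen in
/-- `f' = m x f` has only the zero solution for `m ≠ 0`. -/
theorem eq_zero_of_deriv_eq_mul {f : F} {k : C} (hk : k ≠ 0)
    (h : f′ + algebraMap C F k * x * f = 0) : f = 0 := by
  obtain ⟨p, q, hq, hf, -, he⟩ := fraction_equation hCc hx hgen k 0 (by rw [h, map_zero])
  rw [C_0, zero_mul] at he
  by_contra h0
  have hp : p ≠ 0 := fun hp => h0 (by rw [hf, hp, map_zero, zero_div])
  have h1 : (Polynomial.C k * X * p * q).natDegree = 1 + p.natDegree + q.natDegree := by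
    rw [natDegree_mul (by simp [hk, hp]) hq, natDegree_mul (by simp [hk]) hp,
      natDegree_C_mul_X _ hk]
  have h2 : (derivative p * q - p * derivative q).natDegree ≤ p.natDegree + q.natDegree := by
    refine (natDegree_sub_le _ _).trans (max_le ?_ ?_) <;> refine natDegree_mul_le.trans ?_
    · exact Nat.add_le_add_right ((natDegree_derivative_le p).trans (Nat.sub_le _ _)) _
    · exact Nat.add_le_add_left ((natDegree_derivative_le q).trans (Nat.sub_le _ _)) _
  rw [eq_neg_of_add_eq_zero_left he, natDegree_neg, h1] at h2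
  omega

include hCc hx hgen in
/-- `f' + k x f = 1` has no solution for `k ≠ 0`. -/
theorem not_deriv_add_mul_eq_one (f : F) {k : C} (hk : k ≠ 0) :
    f′ + algebraMap C F k * x * f ≠ 1 := fun h => by
  obtain ⟨p, q, hq, -, hpq, he⟩ := fraction_equation hCc hx hgen k 1 (by rw [h, map_one])
  rw [C_1, one_mul] at he
  have hdvd : q ∣ p * derivative q :=
    ⟨derivative p + Polynomial.C k * X * p - q, by linear_combination -he⟩
  have hq' : q.natDegree = 0 := by
    by_contra h0
    have hne : derivative q ≠ 0 := fun hd => h0 (derivative_eq_zero.1 hd)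
    have := natDegree_le_of_dvd (hpq.symm.dvd_of_dvd_mul_left hdvd) hne
    have := natDegree_derivative_lt h0
    omega
  obtain ⟨c, rfl⟩ := natDegree_eq_zero.1 hq'
  have hc : c ≠ 0 := fun hc => hq (by rw [hc, C_0])
  rw [derivative_C, mul_zero, sub_zero] at he
  have he' : derivative p + Polynomial.C k * X * p = Polynomial.C c :=
    mul_right_cancel₀ hq (by linear_combination he)
  by_cases hp : p = 0
  · rw [hp, derivative_zero, mul_zero, add_zero] at he'
    exact hc (C_eq_zero.1 he'.symm)
  have h1 : (Polynomial.C k * X * p).natDegree = 1 + p.natDegree := by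
    rw [natDegree_mul (by simp [hk]) hp, natDegree_C_mul_X _ hk]
  have h2 : (Polynomial.C c - derivative p).natDegree ≤ p.natDegree :=
    (natDegree_sub_le _ _).trans (max_le (by simp)
      ((natDegree_derivative_le p).trans (Nat.sub_le _ _)))
  rw [show Polynomial.C c - derivative p = Polynomial.C k * X * p by linear_combination -he',
    h1] at h2
  omega

end Fermat.Agent.ElementaryIntegration
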