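import Mathlib.RingTheory.HahnSeries.Multiplication
import Mathlib.RingTheory.HahnSeries.Summable
import Mathlib.FieldTheory.Differential.Basic
import Mathlib.Tactic.LinearCombination

/-!
# Series in a variable with a prescribed logarithmic derivative
-/

set_option autoImplicit false

noncomputable section

open scoped Differential

namespace Fermat.Agent.ElementaryIntegration

variable {F : Type*} [Field F] [Differential F] (h : F)

/-- `∑ aⱼ θʲ ↦ ∑ (aⱼ' + j h aⱼ) θʲ`, that is `θ' = h θ`. -/
def twistFun (u : HahnSeries ℤ F) : HahnSeries ℤ F where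
  coeff j := (u.coeff j)′ + j * h * u.coeff j
  isPWO_support' := u.isPWO_support.mono fun j hj => by
    intro h0
    exact hj (show (u.coeff j)′ + j * h * u.coeff j = 0 by rw [h0, map_zero, mul_zero, add_zero])

theorem coeff_twistFun (u : HahnSeries ℤ F) (j : ℤ) :
    (twistFun h u).coeff j = (u.coeff j)′ + j * h * u.coeff j :=
  rfl

theorem support_twistFun (u : HahnSeries ℤ F) : (twistFun h u).support ⊆ u.support :=
  fun j hj h0 => hj (by rw [coeff_twistFun, h0, map_zero, mul_zero, add_zero])

theorem twistFun_add (u v : HahnSeries ℤ F) :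
    twistFun h (u + v) = twistFun h u + twistFun h v := by
  ext j
  simp only [coeff_twistFun, HahnSeries.coeff_add, map_add]
  ring

theorem twistFun_mul (u v : HahnSeries ℤ F) :
    twistFun h (u * v) = u * twistFun h v + v * twistFun h u := by
  ext q
  rw [HahnSeries.coeff_add, mul_comm v, coeff_twistFun,
    HahnSeries.coeff_mul_right' v.isPWO_support (support_twistFun h v),
    HahnSeries.coeff_mul_left' u.isPWO_support (support_twistFun h u), HahnSeries.coeff_mul,
    map_sum, Finset.mul_sum, ← Finset.sum_add_distrib, ← Finset.sum_add_distrib]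
  refine Finset.sum_congr rfl fun ij hij => ?_
  rw [← (Finset.mem_addAntidiagonal.1 hij).2.2, Derivation.leibniz, coeff_twistFun, coeff_twistFun,
    smul_eq_mul, smul_eq_mul, Int.cast_add]
  ring

theorem twistFun_C (c : F) :
    twistFun h (HahnSeries.C c) = HahnSeries.C (c′) := by
  ext j
  by_cases hj : j = 0
  · simp [coeff_twistFun, hj]
  · simp [coeff_twistFun, HahnSeries.C_apply, hj]

theorem twistFun_single_one :
    twistFun h (HahnSeries.single 1 1) = HahnSeries.C h * HahnSeries.single 1 1 := by
  ext j
  rw [HahnSeries.C_apply, HahnSeries.single_mul_single, zero_add, mul_one, coeff_twistFun]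
  by_cases hj : j = 1
  · simp [hj]
  · simp [hj]

theorem coeff_mul_of_lt {u R : HahnSeries ℤ F} {k l : ℤ} (hR : ∀ j < l, R.coeff j = 0)
    (hk : k < u.order + l) : (u * R).coeff k = 0 := by
  by_contra h0
  have hne : u * R ≠ 0 := fun h1 => h0 (by rw [h1, HahnSeries.coeff_zero])
  have h1 := HahnSeries.order_le_of_coeff_ne_zero h0
  rw [HahnSeries.order_mul (left_ne_zero_of_mul hne) (right_ne_zero_of_mul hne)] at h1
  have h2 : l ≤ R.order := by
    by_contra h2
    refine HahnSeries.leadingCoeff_ne_zero.2 (right_ne_zero_of_mul hne) ?_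
    rw [HahnSeries.leadingCoeff_eq]
    exact hR _ (not_le.1 h2)
  omega

/-- **The first coefficient of a logarithmic derivative.** -/
theorem exists_coeff_one_logDeriv (u : HahnSeries ℤ F) :
    ∃ f, (twistFun h u / u).coeff 1 = f′ + h * f := by
  by_cases hu : u = 0
  · exact ⟨0, by simp [hu]⟩
  set Z := twistFun h u / u
  have he : u * Z = twistFun h u := mul_div_cancel₀ _ hu
  set m := u.order
  have ha : u.coeff m ≠ 0 := by
    rw [← HahnSeries.leadingCoeff_eq]
    exact HahnSeries.leadingCoeff_ne_zero.2 hu
  have hZneg : ∀ j < (0 : ℤ), Z.coeff j = 0 := by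
    intro j hj
    by_contra h0
    have hZ : Z ≠ 0 := fun h1 => h0 (by rw [h1, HahnSeries.coeff_zero])
    have h1 : (twistFun h u).coeff (m + Z.order) ≠ 0 := by
      rw [← he, HahnSeries.coeff_mul_order_add_order]
      exact mul_ne_zero (HahnSeries.leadingCoeff_ne_zero.2 hu)
        (HahnSeries.leadingCoeff_ne_zero.2 hZ)
    have := HahnSeries.order_le_of_coeff_ne_zero (HahnSeries.mem_support _ _ |>.1
      (support_twistFun h u h1))
    have := HahnSeries.order_le_of_coeff_ne_zero h0
    omega
  set R := Z - HahnSeries.single 0 (Z.coeff 0) - HahnSeries.single 1 (Z.coeff 1)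
  have hR : ∀ j < (2 : ℤ), R.coeff j = 0 := fun j hj => by
    simp only [R, HahnSeries.coeff_sub]
    rcases lt_trichotomy j 0 with hj0 | hj0 | hj0
    · simp [hZneg j hj0, hj0.ne, (show j ≠ 1 by omega)]
    · simp [hj0]
    · obtain rfl : j = 1 := by omega
      simp
  have hdec : ∀ k, k < m + 2 → (twistFun h u).coeff k =
      u.coeff k * Z.coeff 0 + u.coeff (k - 1) * Z.coeff 1 := fun k hk => by
    rw [← he, show u * Z = u * HahnSeries.single 0 (Z.coeff 0) +
      u * HahnSeries.single 1 (Z.coeff 1) + u * R by simp only [R]; ring,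
      HahnSeries.coeff_add, HahnSeries.coeff_add, coeff_mul_of_lt hR hk, add_zero]
    congr 1
    · simpa using HahnSeries.coeff_mul_single_add (x := u) (r := Z.coeff 0) (a := k) (b := 0)
    · simpa using HahnSeries.coeff_mul_single_add (x := u) (r := Z.coeff 1) (a := k - 1) (b := 1)
  have hm1 : u.coeff (m - 1) = 0 := by
    by_contra h0
    have := HahnSeries.order_le_of_coeff_ne_zero h0
    omega
  have e0 := hdec m (by omega)
  have e1 := hdec (m + 1) (by omega)
  rw [hm1, zero_mul, add_zero, coeff_twistFun] at e0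
  rw [add_sub_cancel_right, coeff_twistFun, Int.cast_add, Int.cast_one] at e1
  refine ⟨u.coeff (m + 1) / u.coeff m, ?_⟩
  rw [Derivation.leibniz_div]
  simp only [smul_eq_mul, inv_zpow, zpow_neg]
  field_simp
  linear_combination u.coeff (m + 1) * e0 - u.coeff m * e1

end Fermat.Agent.ElementaryIntegration
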