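import Fermat.Agent.ElementaryIntegration.Theorem
import Fermat.Agent.ElementaryIntegration.Rational
import Fermat.Agent.ElementaryIntegration.Twist
import Mathlib.FieldTheory.RatFunc.AsPolynomial
import Mathlib.RingTheory.LaurentSeries

/-!
# `e^(x²)` has no elementary antiderivative
-/

set_option autoImplicit false

noncomputable section

open Polynomial Fermat.Agent.AxSchanuel Differential
open scoped Differential RatFunc

namespace Fermat.Agent.ElementaryIntegration

universe u v

variable {F : Type u} {K : Type v} [Field F] [Differential F] [Field K] [Differential K]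
  [Algebra F K] [DifferentialAlgebra F K] {θ : K}

/-- An exponential is transcendental unless the base has a matching solution. -/
theorem transcendental_of_exp {h : F} (hθ : θ ≠ 0) (hd : θ′ = algebraMap F K h * θ)
    (hno : ∀ (j : ℕ) (a : F), 0 < j → a′ = (j : F) * h * a → a = 0) : Transcendental F θ := by
  intro halg
  have hi := halg.isIntegral
  set p := minpoly F θ
  have hp0 : p.coeff 0 ≠ 0 := minpoly.coeff_zero_ne_zero hi hθ
  set n := p.natDegree
  have hn : 0 < n := minpoly.natDegree_pos hi
  set Q : F[X] := ∑ j ∈ Finset.range n,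
    Polynomial.C ((p.coeff j)′ + ((j : F) - n) * h * p.coeff j) * X ^ j
  have hsum := minpoly.aeval F θ
  rw [aeval_eq_sum_range, Finset.sum_range_succ] at hsum
  rw [show p.coeff n = 1 from (minpoly.monic hi).coeff_natDegree, one_smul] at hsum
  simp only [Algebra.smul_def] at hsum
  have hQ : aeval θ Q = 0 := by
    have hpow : ∀ j : ℕ, (θ ^ j)′ = (j : K) * algebraMap F K h * θ ^ j := fun j => by
      induction j with
      | zero => simp
      | succ j ih =>
        rw [pow_succ, Derivation.leibniz, ih, hd, smul_eq_mul, smul_eq_mul]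
        push_cast
        ring
    have hD := congrArg (fun a : K => a′) hsum
    simp only [map_add, map_sum, map_zero, Derivation.leibniz, deriv_algebraMap, smul_eq_mul,
      hpow] at hD
    simp only [Q, map_sum, map_mul, map_pow, aeval_C, aeval_X, map_add, map_sub, map_natCast,
      add_mul, Finset.sum_add_distrib, sub_mul, Finset.sum_sub_distrib]
    simp only [Finset.sum_add_distrib] at hD
    have e1 : ∑ i ∈ Finset.range n,
        algebraMap F K (p.coeff i) * ((i : K) * algebraMap F K h * θ ^ i)
        = ∑ i ∈ Finset.range n, (i : K) * algebraMap F K h * algebraMap F K (p.coeff i) * θ ^ i :=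
      Finset.sum_congr rfl fun i _ => by ring
    have e2 : ∑ i ∈ Finset.range n, θ ^ i * algebraMap F K (p.coeff i)′
        = ∑ i ∈ Finset.range n, algebraMap F K (p.coeff i)′ * θ ^ i :=
      Finset.sum_congr rfl fun i _ => by ring
    have e3 : ∑ i ∈ Finset.range n, (n : K) * algebraMap F K h * algebraMap F K (p.coeff i) * θ ^ i
        = (n : K) * algebraMap F K h *
          ∑ i ∈ Finset.range n, algebraMap F K (p.coeff i) * θ ^ i := by
      rw [Finset.mul_sum]
      exact Finset.sum_congr rfl fun i _ => by ring
    rw [e1, e2] at hD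
    rw [e3]
    linear_combination hD - (n : K) * algebraMap F K h * hsum
  have hQ0 : Q = 0 := by
    by_contra hne
    have h1 := minpoly.degree_le_of_ne_zero F θ hne hQ
    have h2 : Q.degree < (n : ℕ) :=
      (degree_sum_le _ _).trans_lt ((Finset.sup_lt_iff (WithBot.bot_lt_coe _)).2 fun j hj =>
        (degree_C_mul_X_pow_le _ _).trans_lt (Nat.cast_lt.2 (Finset.mem_range.1 hj)))
    rw [degree_eq_natDegree (minpoly.ne_zero hi)] at h1
    exact (h1.trans_lt h2).false
  have h0 := congrArg (fun r : F[X] => r.coeff 0) hQ0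
  simp only [Q, finsetSum_coeff, coeff_C_mul_X_pow, Finset.sum_ite_eq, Finset.mem_range, hn,
    if_true, coeff_zero, Nat.cast_zero, zero_sub] at h0
  exact hp0 (hno n _ hn (by linear_combination h0))

/-- A field generated by elements whose derivatives it contains is stable. -/
theorem deriv_mem_adjoin {B L : Type*} [Field B] [Field L] [Differential L] [Algebra B L]
    {S : Set L} (hB : ∀ c : B, (algebraMap B L c)′ ∈ IntermediateField.adjoin B S)
    (hS : ∀ s ∈ S, s′ ∈ IntermediateField.adjoin B S) {a : L}
    (ha : a ∈ IntermediateField.adjoin B S) : a′ ∈ IntermediateField.adjoin B S := by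
  induction ha using IntermediateField.adjoin_induction with
  | mem w hw => exact hS w hw
  | algebraMap c => exact hB c
  | add a b _ _ ha hb => rw [map_add]; exact add_mem ha hb
  | inv a ha' ha =>
    rw [Derivation.leibniz_inv, smul_eq_mul]
    exact mul_mem (neg_mem (pow_mem (inv_mem ha') 2)) ha
  | mul a b ha' hb' ha hb =>
    rw [Derivation.leibniz, smul_eq_mul, smul_eq_mul]
    exact add_mem (mul_mem ha' hb) (mul_mem hb' ha)

/-- The derivation of a stable intermediate field. -/
def restrictDifferential {B L : Type*} [Field B] [Field L] [Differential L] [Algebra B L]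
    (E : IntermediateField B L) (hE : ∀ a ∈ E, a′ ∈ E) : Differential E :=
  ⟨Derivation.mk'
    ({ toFun := fun a => ⟨(a : L)′, hE _ a.2⟩
       map_zero' := Subtype.ext (map_zero _)
       map_add' := fun a b => Subtype.ext (map_add _ _ _) } : E →+ E).toIntLinearMap
    fun a b => Subtype.ext (Derivation.leibniz _ _ _)⟩

/-- A multiple of a derivation. -/
def scaleDifferential {B L : Type*} [Field B] [Field L] [Algebra B L] (D : Derivation B L L)
    (t : L) : Differential L :=
  ⟨Derivation.mk'
    ({ toFun := fun b => t * D b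
       map_zero' := by simp
       map_add' := fun a b => by rw [map_add, mul_add] } : L →+ L).toIntLinearMap
    fun a b => by
      show t * D (a * b) = a * (t * D b) + b * (t * D a)
      rw [Derivation.leibniz, smul_eq_mul, smul_eq_mul]
      ring⟩

theorem isElementary_tower (E : IntermediateField F K) (hK : IsElementaryExtension F K) :
    IsElementaryExtension E K := by
  obtain ⟨N, s, hgen, hs⟩ := hK
  have hle : ∀ S : Set K, IntermediateField.adjoin F S ≤
      (IntermediateField.adjoin E S).restrictScalars F := fun S =>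
    IntermediateField.adjoin_le_iff.2 (IntermediateField.subset_adjoin E S)
  refine ⟨N, s, eq_top_iff.2 fun a _ => hle _ (hgen ▸ IntermediateField.mem_top), fun j => ?_⟩
  rcases hs j with h | ⟨w, hw, h1, h2⟩ | ⟨w, hw, h1, h2⟩
  · exact .inl (h.ringHom_of_comp_eq (IntermediateField.inclusion (hle _)).toRingHom
      (RingHom.id K) (fun a b hab => Subtype.ext (Subtype.ext_iff.1 hab :)) rfl)
  · exact .inr (.inl ⟨w, hle _ hw, h1, h2⟩)
  · exact .inr (.inr ⟨w, hle _ hw, h1, h2⟩)

theorem exists_laurent_embedding (htr : Transcendental F θ) :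
    ∃ g : IntermediateField.adjoin F {θ} →+* LaurentSeries F,
      g ⟨θ, IntermediateField.mem_adjoin_simple_self F θ⟩ = HahnSeries.single 1 1 ∧
        ∀ c, g (algebraMap F _ c) = HahnSeries.C c := by
  let e := RatFunc.algEquivOfTranscendental θ htr
  refine ⟨(algebraMap (RatFunc F) (LaurentSeries F)).comp e.symm.toAlgHom.toRingHom, ?_,
    fun c => ?_⟩
  · have h2 : e.symm ⟨θ, IntermediateField.mem_adjoin_simple_self F θ⟩ = RatFunc.X := by
      rw [AlgEquiv.symm_apply_eq, ← RatFunc.algebraMap_X,
        RatFunc.algEquivOfTranscendental_algebraMap, Polynomial.aeval_X]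
      rfl
    show algebraMap (RatFunc F) (LaurentSeries F) (e.symm _) = _
    rw [h2]
    exact RatFunc.coe_X
  · show algebraMap (RatFunc F) (LaurentSeries F) (e.symm _) = _
    rw [e.symm.commutes, IsScalarTower.algebraMap_apply F (Polynomial F) (RatFunc F),
      ← IsScalarTower.algebraMap_apply (Polynomial F) (RatFunc F) (LaurentSeries F),
      Polynomial.algebraMap_hahnSeries_apply, Polynomial.algebraMap_eq, Polynomial.coe_C,
      HahnSeries.ofPowerSeries_C]

variable {C : Type*} [Field C] [CharZero C] [Algebra C F]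

/-- **`e^(x²)` has no elementary antiderivative.** -/
theorem not_deriv_eq_exp_square [Algebra C K] [IsScalarTower C F K] {x : F}
    (hCc : ∀ c : C, (algebraMap C F c)′ = 0) (hx : x′ = 1)
    (hgen : IntermediateField.adjoin C {x} = ⊤) (hK : IsElementaryExtension F K)
    (hconst : ∀ a : K, a′ = 0 → a ∈ Set.range (algebraMap C K))
    (hθ : θ ≠ 0) (hd : θ′ = algebraMap F K (2 * x) * θ) (w : K) : w′ ≠ θ := fun hw => by
  have : CharZero F := charZero_of_injective_ringHom (algebraMap C F).injective
  have htr : Transcendental F θ := transcendental_of_exp hθ hd fun j a hj ha =>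
    eq_zero_of_deriv_eq_mul hCc hx hgen (k := -(2 * (j : C)))
      (neg_ne_zero.2 (mul_ne_zero two_ne_zero (Nat.cast_ne_zero.2 hj.ne')))
      (by rw [ha, map_neg, map_mul, map_ofNat, map_natCast]; ring)
  set E := IntermediateField.adjoin F {θ}
  letI : Differential E := restrictDifferential E fun a ha => deriv_mem_adjoin
    (fun c => by rw [deriv_algebraMap]; exact IntermediateField.algebraMap_mem _ _)
    (fun s hs => by
      rw [Set.mem_singleton_iff] at hs
      rw [hs, hd]
      exact mul_mem (IntermediateField.algebraMap_mem _ _)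
        (IntermediateField.mem_adjoin_simple_self F _)) ha
  have : DifferentialAlgebra E K := ⟨fun a => rfl⟩
  have : ContainConstants E K := ⟨fun {a} ha => by
    obtain ⟨c, rfl⟩ := hconst a ha
    exact ⟨algebraMap F E (algebraMap C F c), (IsScalarTower.algebraMap_apply C F K c).symm⟩⟩
  have : CharZero E := charZero_of_injective_ringHom (algebraMap F E).injective
  set θE : E := ⟨θ, IntermediateField.mem_adjoin_simple_self F θ⟩
  obtain ⟨ι, _, c, hc, u, v, hrel⟩ :=
    (isLiouville_of_isElementaryExtension E K (isElementary_tower E hK)).isLiouville θE PEmpty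
      PEmpty.elim (fun e => e.elim) PEmpty.elim w (by
        simp only [Finset.univ_eq_empty, Finset.sum_empty, zero_add]
        exact hw.symm)
  obtain ⟨g, hgθ, hgC⟩ := exists_laurent_embedding htr
  have hg : ∀ a : E, g (a′) = twistFun (2 * x) (g a) := by
    have hzero : twistFun (2 * x) (0 : HahnSeries ℤ F) = 0 := by ext; simp [coeff_twistFun]
    rintro ⟨a, ha⟩
    induction ha using IntermediateField.adjoin_induction with
    | mem b hb =>
      rw [Set.mem_singleton_iff] at hb
      subst b
      have e : (⟨θ, IntermediateField.mem_adjoin_simple_self F θ⟩ : E)′ =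
          algebraMap F E (2 * x) * ⟨θ, IntermediateField.mem_adjoin_simple_self F θ⟩ :=
        Subtype.ext hd
      rw [e, map_mul, hgC, hgθ, twistFun_single_one]
    | algebraMap b =>
      have e : (algebraMap F E b)′ = algebraMap F E (b′) := Subtype.ext (deriv_algebraMap b)
      show g ((algebraMap F E b)′) = twistFun (2 * x) (g (algebraMap F E b))
      rw [e, hgC, hgC, twistFun_C]
    | add a b ha hb iha ihb =>
      show g ((⟨a, ha⟩ + ⟨b, hb⟩ : E)′) = twistFun (2 * x) (g (⟨a, ha⟩ + ⟨b, hb⟩))
      rw [map_add, map_add, map_add, iha, ihb, twistFun_add]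
    | inv a ha iha =>
      show g ((⟨a, ha⟩⁻¹ : E)′) = twistFun (2 * x) (g (⟨a, ha⟩⁻¹))
      set b : E := ⟨a, ha⟩
      by_cases hb : b = 0
      · simp [hb, hzero]
      have h1 : twistFun (2 * x) (g b * g b⁻¹) = 0 := by
        rw [← map_mul, mul_inv_cancel₀ hb, map_one, ← map_one (HahnSeries.C (Γ := ℤ) (R := F)),
          twistFun_C, Derivation.map_one_eq_zero, map_zero]
      rw [twistFun_mul, ← iha] at h1
      rw [Derivation.leibniz_inv, smul_eq_mul, map_mul, map_neg, map_pow, map_inv₀]
      rw [map_inv₀] at h1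
      have hgb : g b ≠ 0 := (map_ne_zero g).2 hb
      field_simp at h1 ⊢
      linear_combination -h1
    | mul a b ha hb iha ihb =>
      show g ((⟨a, ha⟩ * ⟨b, hb⟩ : E)′) = twistFun (2 * x) (g (⟨a, ha⟩ * ⟨b, hb⟩))
      rw [Derivation.leibniz, smul_eq_mul, smul_eq_mul, map_add, map_mul, map_mul, map_mul, iha,
        ihb, twistFun_mul]
  have hcF : ∀ i, ∃ cF : F, cF′ = 0 ∧ g (c i) = HahnSeries.C cF := fun i => by
    have h0 : ((c i : E) : K)′ = 0 := congrArg Subtype.val (hc i)
    obtain ⟨d, hd'⟩ := hconst _ h0
    refine ⟨algebraMap C F d, hCc d, ?_⟩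
    rw [← hgC]
    exact congrArg g (Subtype.ext (hd'.symm.trans (IsScalarTower.algebraMap_apply C F K d)))
  choose cF hcF hgc using hcF
  choose f hf using fun i => exists_coeff_one_logDeriv (2 * x) (g (u i))
  have h1 := congrArg (fun a : E => (g a).coeff 1) hrel
  simp only [map_add, map_sum, map_mul, Differential.logDeriv, map_div₀, hg, hgc,
    HahnSeries.coeff_add, HahnSeries.coeff_sum, HahnSeries.C_apply,
    HahnSeries.coeff_single_zero_mul, hf] at h1
  rw [show g θE = HahnSeries.single 1 1 from hgθ, HahnSeries.coeff_single_same,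
    coeff_twistFun, Int.cast_one, one_mul] at h1
  refine not_deriv_add_mul_eq_one hCc hx hgen (∑ i, cF i * f i + (g v).coeff 1) (k := 2)
    two_ne_zero ?_
  simp only [map_add, map_sum, Derivation.leibniz, hcF, mul_zero, add_zero,
    smul_eq_mul, map_ofNat, mul_add, Finset.sum_add_distrib] at h1 ⊢
  rw [Finset.mul_sum]
  rw [h1]
  have e : ∑ i, 2 * x * (cF i * f i) = ∑ i, cF i * (2 * x * f i) :=
    Finset.sum_congr rfl fun i _ => by ring
  linear_combination e

/-- There are such fields: `C(t)` and `C(t, exp (t²))` among the Laurent series. -/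
theorem exists_exp_square (C : Type u) [Field C] [CharZero C] :
    ∃ (F K : Type u) (_ : Field F) (_ : Differential F) (_ : Field K) (_ : Differential K)
      (_ : Algebra C F) (_ : Algebra F K) (_ : Algebra C K) (_ : IsScalarTower C F K)
      (_ : DifferentialAlgebra F K) (x : F) (θ : K),
      (∀ c : C, (algebraMap C F c)′ = 0) ∧ x′ = 1 ∧ IntermediateField.adjoin C {x} = ⊤ ∧
        IsElementaryExtension F K ∧ (∀ a : K, a′ = 0 → a ∈ Set.range (algebraMap C K)) ∧
          θ ≠ 0 ∧ θ′ = algebraMap F K (2 * x) * θ ∧ ∀ w : K, w′ ≠ θ := by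
  set t := HahnSeries.single (1 : ℤ) (1 : C)
  have ht : t ≠ 0 := HahnSeries.single_ne_zero one_ne_zero
  letI : Differential (LaurentSeries C) := scaleDifferential laurentEuler t⁻¹
  have hδ : ∀ a : LaurentSeries C, a′ = t⁻¹ * laurentEuler a := fun a => rfl
  have hC : ∀ c : C, (algebraMap C (LaurentSeries C) c)′ = 0 := fun c => by
    rw [hδ]
    refine mul_eq_zero_of_right _ ?_
    ext j
    rw [coeff_laurentEuler, algebraMap_laurent, HahnSeries.coeff_zero, HahnSeries.C_apply]
    by_cases hj : j = 0
    · simp [hj]
    · simp [hj]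
  have hker : ∀ a : LaurentSeries C, a′ = 0 → a ∈ Set.range (algebraMap C (LaurentSeries C)) :=
    fun a ha => laurentEuler_eq_zero ((mul_eq_zero.1 (hδ a ▸ ha)).resolve_left (inv_ne_zero ht))
  have ht1 : t′ = 1 := by
    have e : laurentEuler t = t := by
      ext j
      rw [coeff_laurentEuler]
      by_cases hj : j = 1
      · simp [hj]
      · simp [t, hj]
    rw [hδ, e, inv_mul_cancel₀ ht]
  set q : PowerSeries C := (PowerSeries.X : PowerSeries C) ^ 2
  have hX : PowerSeries.constantCoeff q = 0 := by simp [q]
  set θ : LaurentSeries C := ((expSeries q : PowerSeries C) : LaurentSeries C)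
  have hθ0 : θ ≠ 0 := fun h => by
    rw [← PowerSeries.coe_zero] at h
    have h' := congrArg PowerSeries.constantCoeff (HahnSeries.ofPowerSeries_injective h)
    rw [constantCoeff_expSeries hX, map_zero] at h'
    exact one_ne_zero h'
  have hθd : θ′ = 2 * t * θ := by
    rw [hδ, inv_mul_eq_iff_eq_mul₀ ht, laurentEuler_coe, derivative_expSeries hX,
      Derivation.leibniz_pow, PowerSeries.derivative_X]
    simp only [Nat.add_one_sub_one, pow_one, smul_eq_mul, mul_one, nsmul_eq_mul, Nat.cast_ofNat,
      PowerSeries.coe_mul, PowerSeries.coe_X, map_ofNat, t, θ]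
    ring
  set F₀ := IntermediateField.adjoin C {t}
  have hF₀ : ∀ a ∈ F₀, a′ ∈ F₀ := fun a ha => deriv_mem_adjoin
    (fun c => by rw [hC]; exact zero_mem _)
    (fun s hs => by rw [Set.mem_singleton_iff.1 hs, ht1]; exact one_mem _) ha
  letI : Differential F₀ := restrictDifferential F₀ hF₀
  have : DifferentialAlgebra F₀ (LaurentSeries C) := ⟨fun a => rfl⟩
  set x : F₀ := ⟨t, IntermediateField.mem_adjoin_simple_self C t⟩
  set K₀ := IntermediateField.adjoin F₀ {θ}
  have hK₀ : ∀ a ∈ K₀, a′ ∈ K₀ := fun a ha => deriv_mem_adjoin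
    (fun c => by rw [deriv_algebraMap]; exact IntermediateField.algebraMap_mem _ _)
    (fun s hs => by
      rw [Set.mem_singleton_iff.1 hs, hθd]
      exact mul_mem (mul_mem (natCast_mem _ 2) (IntermediateField.algebraMap_mem _ x))
        (IntermediateField.mem_adjoin_simple_self _ _)) ha
  letI : Differential K₀ := restrictDifferential K₀ hK₀
  have : DifferentialAlgebra F₀ K₀ := ⟨fun a => Subtype.ext rfl⟩
  set y : K₀ := ⟨θ, IntermediateField.mem_adjoin_simple_self _ _⟩
  have hCc : ∀ c : C, (algebraMap C F₀ c)′ = 0 := fun c => Subtype.ext (hC c)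
  have hx : x′ = 1 := Subtype.ext ht1
  have hgen : IntermediateField.adjoin C {x} = ⊤ := by
    refine IntermediateField.map_injective F₀.val ?_
    rw [IntermediateField.adjoin_map, Set.image_singleton, ← AlgHom.fieldRange_eq_map,
      IntermediateField.fieldRange_val]
    rfl
  have hd : y′ = algebraMap F₀ K₀ (2 * x) * y := by
    refine Subtype.ext (hθd.trans ?_)
    show _ = algebraMap F₀ (LaurentSeries C) (2 * x) * θ
    rw [map_mul, map_ofNat]
    rfl
  have hE : IsElementaryExtension F₀ K₀ := by
    refine ⟨1, fun _ => y, ?_, fun j => .inr (.inr ⟨algebraMap F₀ K₀ (x ^ 2),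
      IntermediateField.algebraMap_mem _ _, fun h => hθ0 (congrArg Subtype.val h), ?_⟩)⟩
    · refine IntermediateField.map_injective K₀.val ?_
      rw [IntermediateField.adjoin_map, Set.range_const, Set.image_singleton,
        ← AlgHom.fieldRange_eq_map, IntermediateField.fieldRange_val]
      rfl
    · rw [deriv_algebraMap, Derivation.leibniz_pow, hx, hd]
      simp only [Nat.add_one_sub_one, pow_one, smul_eq_mul, mul_one, nsmul_eq_mul, Nat.cast_ofNat]
      ring
  have hconst : ∀ a : K₀, a′ = 0 → a ∈ Set.range (algebraMap C K₀) := fun a ha => by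
    obtain ⟨c, hc⟩ := hker a (congrArg Subtype.val ha)
    exact ⟨c, Subtype.ext hc⟩
  exact ⟨F₀, K₀, inferInstance, inferInstance, inferInstance, inferInstance, inferInstance,
    inferInstance, inferInstance, inferInstance, inferInstance, x, y, hCc, hx, hgen, hE, hconst,
    fun h => hθ0 (congrArg Subtype.val h), hd,
    not_deriv_eq_exp_square hCc hx hgen hE hconst (fun h => hθ0 (congrArg Subtype.val h)) hd⟩

end Fermat.Agent.ElementaryIntegration
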