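import Fermat.Agent.AxSchanuel.Series
import Mathlib.FieldTheory.Differential.Liouville

/-!
# Elementary extensions and their differential forms
-/

set_option autoImplicit false

noncomputable section

open Differential Fermat.Agent.AxSchanuel
open scoped Differential

namespace Fermat.Agent.ElementaryIntegration

universe u v

variable (F : Type u) (K : Type v) [Field F] [Field K] [Differential K] [Algebra F K]

/-- A finite tower of algebraic elements, logarithms and exponentials. -/
def IsElementaryExtension : Prop :=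
  ∃ (N : ℕ) (s : Fin N → K), IntermediateField.adjoin F (Set.range s) = ⊤ ∧ ∀ j,
    IsAlgebraic (IntermediateField.adjoin F (s '' Set.Iio j)) (s j) ∨
    (∃ u ∈ IntermediateField.adjoin F (s '' Set.Iio j), u ≠ 0 ∧ (s j)′ = u′ / u) ∨
      ∃ u ∈ IntermediateField.adjoin F (s '' Set.Iio j), s j ≠ 0 ∧ (s j)′ = s j * u′

variable {F K}

/-- Dropping the elements which are algebraic over their predecessors. -/
theorem isAlgebraic_over_free {N : ℕ} (s : Fin N → K) (T : Set (Fin N))
    (hT : ∀ j ∉ T, IsAlgebraic (IntermediateField.adjoin F (s '' Set.Iio j)) (s j)) (j : Fin N) :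
    IsAlgebraic (IntermediateField.adjoin F (s '' T)) (s j) := by
  induction j using WellFoundedLT.induction with
  | ind j ih =>
    by_cases hj : j ∈ T
    · exact isAlgebraic_algebraMap
        (⟨s j, IntermediateField.subset_adjoin F _ ⟨j, hj, rfl⟩⟩ :
          IntermediateField.adjoin F (s '' T))
    · refine isAlgebraic_of_adjoin _ ?_ (hT j hj)
      rintro _ ⟨i, hi, rfl⟩
      exact ih i hi

variable [CharZero F]

/-- An element killed by all derivations over `G` is algebraic over `G`. -/
theorem isAlgebraic_of_derivations {G L : Type*} [Field G] [CharZero G] [Field L] [Algebra G L]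
    {x : L} (h : ∀ δ : Derivation G L L, δ x = 0) : IsAlgebraic G x := by
  by_cases hx : x = 0
  · rw [hx]; exact isAlgebraic_zero
  exact rosenlicht (fun _ : Fin 1 => (1 : G))
    (Fintype.linearIndependent_iff.2 fun g hg i => by
      rw [Subsingleton.elim i 0]
      simpa using hg)
    (fun _ => x) (fun _ => hx) 0 (fun δ => by simp [h δ]) 0

/-- The free forms are independent. -/
theorem free_forms_independent {N : ℕ} (s : Fin N → K) (T : Finset (Fin N))
    (hT : ∀ j ∈ T, ¬ IsAlgebraic (IntermediateField.adjoin F (s '' Set.Iio j)) (s j))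
    (y z : Fin N → K)
    (hyz : ∀ j ∈ T, y j ∈ IntermediateField.adjoin F (s '' Set.Iio j) ∧ z j = s j ∨
      z j ∈ IntermediateField.adjoin F (s '' Set.Iio j) ∧ y j = s j)
    (b : Fin N → K)
    (hb : ∀ δ : Derivation F K K, ∑ j ∈ T, b j * (δ (y j) - δ (z j) / z j) = 0) :
    ∀ j ∈ T, b j = 0 := by
  classical
  by_contra hne
  push Not at hne
  obtain ⟨j₀, hj₀⟩ := hne
  obtain ⟨m, hm, hmax⟩ := (T.filter fun j => b j ≠ 0).exists_max_image id
    ⟨j₀, Finset.mem_filter.2 hj₀⟩
  obtain ⟨hmT, hbm⟩ := Finset.mem_filter.1 hm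
  set G := IntermediateField.adjoin F (s '' Set.Iio m)
  have : CharZero G := charZero_of_injective_ringHom (algebraMap F G).injective
  refine hT m hmT (isAlgebraic_of_derivations fun δ => ?_)
  let δ' : Derivation F K K := δ.restrictScalars F
  have hG : ∀ a ∈ G, δ' a = 0 := fun a ha => δ.map_algebraMap (⟨a, ha⟩ : G)
  have hrest : ∀ j ∈ T, j ≠ m → b j * (δ' (y j) - δ' (z j) / z j) = 0 := fun j hj hjm => by
    rcases lt_or_gt_of_ne hjm with hlt | hgt
    · have hsj : s j ∈ G := IntermediateField.subset_adjoin F _ ⟨j, hlt, rfl⟩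
      have hle : IntermediateField.adjoin F (s '' Set.Iio j) ≤ G :=
        IntermediateField.adjoin.mono F _ _ (Set.image_mono (Set.Iio_subset_Iio hlt.le))
      rcases hyz j hj with ⟨h1, h2⟩ | ⟨h1, h2⟩
      · rw [hG _ (hle h1), h2, hG _ hsj, zero_div, sub_zero, mul_zero]
      · rw [hG _ (hle h1), h2, hG _ hsj, zero_div, sub_zero, mul_zero]
    · by_contra h0
      exact (hmax j (Finset.mem_filter.2 ⟨hj, left_ne_zero_of_mul h0⟩)).not_gt hgt
  have h := hb δ'
  rw [Finset.sum_eq_single_of_mem m hmT hrest, mul_eq_zero, or_iff_right hbm] at h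
  rcases hyz m hmT with ⟨h1, h2⟩ | ⟨h1, h2⟩
  · rw [hG _ h1, zero_sub, neg_eq_zero, div_eq_zero_iff, h2] at h
    rcases h with h | h
    · exact h
    · exact absurd (h ▸ isAlgebraic_zero) (hT m hmT)
  · rw [hG _ h1, zero_div, sub_zero, h2] at h
    exact h

/-- Constants spanning a family over `ℚ`, with integral coefficients. -/
theorem exists_integral_basis {C ι : Type*} [Field C] [CharZero C] [Fintype ι] (e : ι → C) :
    ∃ (m : ℕ) (f : Fin m → C) (N : ι → Fin m → ℤ), LinearIndependent ℚ f ∧
      (∀ k, f k ∈ Submodule.span ℚ (Set.range e)) ∧ ∀ i, e i = ∑ k, (N i k : C) * f k := by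
  classical
  set W := Submodule.span ℚ (Set.range e)
  have : FiniteDimensional ℚ W := FiniteDimensional.span_of_finite ℚ (Set.finite_range e)
  set B := Module.finBasis ℚ W
  let q : ι → Fin (Module.finrank ℚ W) → ℚ := fun i =>
    B.repr ⟨e i, Submodule.subset_span ⟨i, rfl⟩⟩
  obtain ⟨⟨M, hM⟩, hMq⟩ := IsLocalization.exist_integer_multiples (nonZeroDivisors ℤ)
    (Finset.univ : Finset (ι × Fin (Module.finrank ℚ W))) fun p => q p.1 p.2
  choose N hN using fun p => hMq p (Finset.mem_univ p)
  have hM0 : (M : ℚ) ≠ 0 := Int.cast_ne_zero.2 (nonZeroDivisors.ne_zero hM)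
  refine ⟨_, fun k => (M : ℚ)⁻¹ • (B k : C), fun i k => N (i, k), ?_,
    fun k => W.smul_mem _ (B k).2, fun i => ?_⟩
  · refine Fintype.linearIndependent_iff.2 fun g hg k => ?_
    have h1 : LinearIndependent ℚ fun k => ((B k : C)) :=
      B.linearIndependent.map' W.subtype (Submodule.ker_subtype W)
    have := Fintype.linearIndependent_iff.1 h1 (fun k => g k * (M : ℚ)⁻¹)
      (by rw [← hg]; exact Finset.sum_congr rfl fun k _ => mul_smul _ _ _) k
    exact (mul_eq_zero.1 this).resolve_right (inv_ne_zero hM0)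
  · have h := congrArg Subtype.val (B.sum_repr ⟨e i, Submodule.subset_span ⟨i, rfl⟩⟩)
    rw [Submodule.coe_sum] at h
    refine h.symm.trans (Finset.sum_congr rfl fun k _ => ?_)
    have h' := hN (i, k)
    simp only [zsmul_eq_mul, eq_intCast] at h'
    show q i k • (B k : C) = _
    rw [show q i k = (N (i, k) : ℚ) / (M : ℚ) by rw [eq_div_iff hM0, mul_comm]; exact h'.symm,
      div_eq_mul_inv, mul_smul, Algebra.smul_def, map_intCast]

/-- Logarithmic derivative of a product of powers. -/
theorem derivation_prod_zpow {C L : Type*} [CommRing C] [Field L] [Algebra C L]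
    (δ : Derivation C L L) {ι : Type*} (w : ι → L) (hw : ∀ i, w i ≠ 0) (s : Finset ι)
    (n : ι → ℤ) : δ (∏ i ∈ s, w i ^ n i) / (∏ i ∈ s, w i ^ n i) =
      ∑ i ∈ s, (n i : L) * (δ (w i) / w i) := by
  classical
  induction s using Finset.induction with
  | empty => simp
  | insert i s hi ih =>
    rw [Finset.prod_insert hi, Finset.sum_insert hi, δ.leibniz, ← ih, Derivation.leibniz_zpow,
      zpow_sub_one₀ (hw i)]
    simp only [smul_eq_mul, zsmul_eq_mul]
    have h0 : ∏ j ∈ s, w j ^ n j ≠ 0 :=
      Finset.prod_ne_zero_iff.2 fun j _ => zpow_ne_zero _ (hw j)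
    field_simp [hw i, zpow_ne_zero]
    ring

end Fermat.Agent.ElementaryIntegration
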