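import Fermat.Agent.ElementaryIntegration.Forms

/-!
# Liouville's theorem for elementary extensions
-/

set_option autoImplicit false

noncomputable section

open Differential Fermat.Agent.AxSchanuel
open scoped Differential

namespace Fermat.Agent.ElementaryIntegration

universe u v

variable {F : Type u} {K : Type v} [Field F] [CharZero F] [Differential F] [Field K]
  [Differential K] [Algebra F K] [DifferentialAlgebra F K]

/-- The bracket of the derivation with one over `F`. -/
def bracket (δ : Derivation F K K) : Derivation F K K :=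
  derivationOfConst (fun x => (δ x)′ - δ (x′)) (fun a b => by simp only [map_add]; ring)
    (fun a b => by
      simp only [δ.leibniz, Derivation.leibniz, smul_eq_mul, map_add]
      ring)
    fun c => by simp [deriv_algebraMap]

theorem bracket_apply (δ : Derivation F K K) (x : K) : bracket δ x = (δ x)′ - δ (x′) :=
  rfl

theorem bracket_log (δ : Derivation F K K) (w : K) :
    bracket δ w / w = (δ w / w)′ - δ (w′ / w) := by
  by_cases hw : w = 0
  · simp [hw]
  rw [bracket_apply, Derivation.leibniz_div, Derivation.leibniz_div]
  simp only [smul_eq_mul, inv_zpow]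
  field_simp [hw]
  ring

/-- **The forms are dependent over the constants.** -/
theorem exists_constant_relation [ContainConstants F K] {ι : Type*} [Fintype ι] {m : ℕ}
    (ω : ι → Derivation F K K →ₗ[K] K) (hω : ∀ i δ, ω i (bracket δ) = (ω i δ)′)
    (t : Fin m → K) (ht : ∀ x : K, IsAlgebraic (IntermediateField.adjoin F (Set.range t)) x)
    (hm : m < Fintype.card ι) :
    ∃ b : ι → F, b ≠ 0 ∧ (∀ i, (b i)′ = 0) ∧
      ∀ δ, ∑ i, algebraMap F K (b i) * ω i δ = 0 := by
  classical
  let ev : Derivation F K K →ₗ[K] Fin m → K :=
    { toFun := fun δ j => δ (t j)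
      map_add' := fun δ ε => rfl
      map_smul' := fun a δ => rfl }
  have hker : LinearMap.ker ev ≤ LinearMap.ker (LinearMap.pi ω) := fun δ hδ => by
    have hE : ∀ a ∈ IntermediateField.adjoin F (Set.range t), δ a = 0 := fun a ha => by
      induction ha using IntermediateField.adjoin_induction with
      | mem x hx => obtain ⟨j, rfl⟩ := hx; exact congrFun (LinearMap.mem_ker.1 hδ) j
      | algebraMap c => exact δ.map_algebraMap c
      | add x x' _ _ hx hx' => rw [map_add, hx, hx', add_zero]
      | inv x _ hx => rw [Derivation.leibniz_inv, hx, smul_zero]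
      | mul x x' _ _ hx hx' => rw [δ.leibniz, hx, hx', smul_zero, smul_zero, add_zero]
    have h0 : δ = 0 := Derivation.ext fun x => derivation_eq_zero_of_isAlgebraic δ hE (ht x)
    rw [h0]
    exact map_zero _
  have hlt : Module.finrank K (LinearMap.range (LinearMap.pi ω)) < Fintype.card ι := by
    let q : LinearMap.range ev →ₗ[K] ι → K :=
      ((LinearMap.ker ev).liftQ (LinearMap.pi ω) hker).comp ev.quotKerEquivRange.symm.toLinearMap
    have hr : LinearMap.range (LinearMap.pi ω) ≤ LinearMap.range q := by
      rintro _ ⟨δ, rfl⟩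
      refine ⟨⟨ev δ, δ, rfl⟩, ?_⟩
      simp only [q, LinearMap.comp_apply, LinearEquiv.coe_coe]
      rw [LinearMap.quotKerEquivRange_symm_apply_image ev δ ⟨δ, rfl⟩]
      rfl
    have h1 := LinearMap.finrank_range_le q
    have h2 := (LinearMap.range ev).finrank_le
    have h3 := Submodule.finrank_mono hr
    rw [Module.finrank_fin_fun] at h2
    omega
  obtain ⟨φ, hφ, hker'⟩ := Submodule.exists_le_ker_of_lt_top
    (LinearMap.range (LinearMap.pi ω)) (lt_top_iff_ne_top.2 fun h => by
      rw [h, finrank_top, Module.finrank_fintype_fun_eq_card] at hlt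
      exact lt_irrefl _ hlt)
  let S : Finset ℕ := (Finset.range (Fintype.card ι + 1)).filter fun c => ∃ a : ι → K, a ≠ 0 ∧
    (∀ δ, ∑ i, a i * ω i δ = 0) ∧ (Finset.univ.filter fun i => a i ≠ 0).card = c
  have hS : S.Nonempty := by
    refine ⟨_, Finset.mem_filter.2 ⟨Finset.mem_range.2 (Nat.lt_succ_of_le
      (Finset.card_filter_le _ _)), fun i => φ (Pi.single i 1), fun h => hφ ?_, fun δ => ?_, rfl⟩⟩
    · exact LinearMap.pi_ext fun i x => by
        rw [LinearMap.zero_apply, show (Pi.single i x : ι → K) = x • Pi.single i 1 by
          rw [← Pi.single_smul, smul_eq_mul, mul_one], map_smul, show φ (Pi.single i 1) = 0 from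
          congrFun h i, smul_zero]
    · have : φ (fun i => ω i δ) = 0 := hker' ⟨δ, rfl⟩
      rw [pi_eq_sum_univ (fun i => ω i δ), map_sum] at this
      rw [← this]
      refine Finset.sum_congr rfl fun i _ => ?_
      rw [map_smul, smul_eq_mul, mul_comm]
      congr 1
      exact congrArg φ (funext fun j => by simp [Pi.single_apply, eq_comm])
  obtain ⟨-, a, ha0, ha, hc⟩ := Finset.mem_filter.1 (S.min'_mem hS)
  obtain ⟨i₀, hi₀⟩ := Function.ne_iff.1 ha0
  set b : ι → K := fun i => a i / a i₀
  have hb : ∀ δ, ∑ i, b i * ω i δ = 0 := fun δ => by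
    simp only [b, div_mul_eq_mul_div, ← Finset.sum_div, ha δ, zero_div]
  have hDb : ∀ i, (b i)′ = 0 := by
    by_contra hne
    push Not at hne
    have hann : ∀ δ, ∑ i, (b i)′ * ω i δ = 0 := fun δ => by
      have h := congrArg (fun x : K => x′) (hb δ)
      simp only [map_sum, Derivation.leibniz, smul_eq_mul, Finset.sum_add_distrib, map_zero,
        ← hω] at h
      rw [hb, zero_add] at h
      rw [← h]
      exact Finset.sum_congr rfl fun i _ => mul_comm _ _
    have hmem : (Finset.univ.filter fun i => (b i)′ ≠ 0).card ∈ S := Finset.mem_filter.2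
      ⟨Finset.mem_range.2 (Nat.lt_succ_of_le (Finset.card_filter_le _ _)), fun i => (b i)′,
        Function.ne_iff.2 hne, hann, rfl⟩
    refine (S.min'_le _ hmem).not_gt (hc ▸ Finset.card_lt_card ?_)
    rw [Finset.ssubset_iff_of_subset fun i hi => ?_]
    · refine ⟨i₀, by simpa using hi₀, ?_⟩
      simp [b, div_self hi₀]
    · simp only [Finset.mem_filter, Finset.mem_univ, true_and] at hi ⊢
      exact fun h0 => hi (by simp [b, h0])
  choose c hc' using fun i => mem_range_of_deriv_eq_zero F (hDb i)
  refine ⟨c, fun h => ?_, fun i => ?_, fun δ => ?_⟩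
  · have h' := hc' i₀
    simp [h, b, div_self hi₀] at h'
  · refine (algebraMap F K).injective ?_
    rw [map_zero, ← deriv_algebraMap, hc', hDb]
  · simp only [hc', hb]

variable (F K) in
/-- **Liouville's theorem.** -/
theorem isLiouville_of_isElementaryExtension [ContainConstants F K]
    (hK : IsElementaryExtension F K) : IsLiouville F K where
  isLiouville a ι _ c hc u v hrel := by
    classical
    obtain ⟨N, s, hgen, hs⟩ := hK
    have hrel' : algebraMap F K a =
        ∑ x, algebraMap F K (c x) * Differential.logDeriv (u x) + v′ := hrel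
    have : CharZero K := charZero_of_injective_ringHom (algebraMap F K).injective
    set T := Finset.univ.filter fun j =>
      ¬ IsAlgebraic (IntermediateField.adjoin F (s '' Set.Iio j)) (s j) with hTdef
    have hyz : ∀ j, ∃ y z : K, j ∈ T → z ≠ 0 ∧ y′ = z′ / z ∧
        (y ∈ IntermediateField.adjoin F (s '' Set.Iio j) ∧ z = s j ∨
          z ∈ IntermediateField.adjoin F (s '' Set.Iio j) ∧ y = s j) := fun j => by
      by_cases hj : j ∈ T
      · rcases hs j with h | ⟨w, hw, hw0, e⟩ | ⟨w, hw, hw0, e⟩
        · exact absurd h (Finset.mem_filter.1 hj).2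
        · exact ⟨s j, w, fun _ => ⟨hw0, e, .inr ⟨hw, rfl⟩⟩⟩
        · refine ⟨w, s j, fun _ => ⟨hw0, ?_, .inl ⟨hw, rfl⟩⟩⟩
          rw [e, mul_div_cancel_left₀ _ hw0]
      · exact ⟨0, 1, fun h => absurd h hj⟩
    choose y z hyz using hyz
    let u' : ι → K := fun x => if u x = 0 then 1 else u x
    have hu' : ∀ x, u' x ≠ 0 := fun x => by simp only [u']; split_ifs <;> simp [*]
    have hlog : ∀ x, Differential.logDeriv (u x) = (u' x)′ / u' x := fun x => by
      simp only [u', Differential.logDeriv]
      split_ifs with h <;> simp [h]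
    let ω : Option T → Derivation F K K →ₗ[K] K := fun o => o.elim
      { toFun := fun δ => δ v + ∑ x, algebraMap F K (c x) * (δ (u' x) / u' x)
        map_add' := fun δ ε => by
          simp only [Derivation.add_apply, add_div, mul_add, Finset.sum_add_distrib]; ring
        map_smul' := fun r δ => by
          simp only [Derivation.smul_apply, smul_eq_mul, RingHom.id_apply, mul_add, Finset.mul_sum]
          exact congrArg _ (Finset.sum_congr rfl fun x _ => by ring) }
      fun j =>
      { toFun := fun δ => δ (y j) - δ (z j) / z j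
        map_add' := fun δ ε => by simp [add_div]; ring
        map_smul' := fun r δ => by simp [mul_div_assoc]; ring }
    have hω : ∀ o δ, ω o (bracket δ) = (ω o δ)′ := by
      rintro (_ | ⟨j, hj⟩) δ
      · show bracket δ v + ∑ x, algebraMap F K (c x) * (bracket δ (u' x) / u' x) =
          ((δ v + ∑ x, algebraMap F K (c x) * (δ (u' x) / u' x))′)
        have h0 := congrArg δ hrel'
        simp only [δ.map_algebraMap, map_add, map_sum, δ.leibniz, smul_eq_mul, mul_zero, zero_mul,
          add_zero, hlog] at h0
        simp only [bracket_apply δ v, bracket_log, mul_sub, Finset.sum_sub_distrib, map_add,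
          map_sum, Derivation.leibniz, smul_eq_mul, deriv_algebraMap, hc, map_zero, mul_zero,
          add_zero]
        linear_combination h0
      · show bracket δ (y j) - bracket δ (z j) / z j = ((δ (y j) - δ (z j) / z j)′)
        rw [bracket_log, bracket_apply, (hyz j hj).2.1, map_sub]
        ring
    let e := (Fintype.equivFin T).symm
    let t : Fin (Fintype.card T) → K := fun i => s (e i)
    have ht : ∀ x : K, IsAlgebraic (IntermediateField.adjoin F (Set.range t)) x := fun x => by
      have hr : Set.range t = s '' (T : Set (Fin N)) := by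
        ext w
        refine ⟨?_, ?_⟩
        · rintro ⟨i, rfl⟩
          exact ⟨_, (e i).2, rfl⟩
        · rintro ⟨j, hj, rfl⟩
          exact ⟨e.symm ⟨j, hj⟩, by simp [t]⟩
      rw [hr]
      refine isAlgebraic_of_adjoin _ (w := Set.range s) ?_ ?_
      · rintro _ ⟨j, rfl⟩
        exact isAlgebraic_over_free s _ (fun i hi => by simpa [hTdef] using hi) j
      · rw [hgen]
        exact isAlgebraic_algebraMap (⟨x, trivial⟩ : (⊤ : IntermediateField F K))
    obtain ⟨b, hb0, hbc, hb⟩ := exists_constant_relation ω hω t ht (by simp)
    have hnone : b none ≠ 0 := fun h0 => hb0 (funext fun o => by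
      rcases o with _ | ⟨j, hj⟩
      · exact h0
      refine (algebraMap F K).injective ((free_forms_independent s T
        (fun i hi => (Finset.mem_filter.1 hi).2) y z (fun i hi => (hyz i hi).2.2)
        (fun i => if h : i ∈ T then algebraMap F K (b (some ⟨i, h⟩)) else 0) (fun δ => ?_) j
        hj).symm.trans (dif_pos hj) ▸ (map_zero _).symm)
      have h := hb δ
      rw [Fintype.sum_option, h0, map_zero, zero_mul, zero_add] at h
      rw [← h, ← Finset.sum_coe_sort]
      exact Finset.sum_congr rfl fun i _ => by rw [dif_pos i.2]; rfl)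
    -- constants and arguments of the logarithms
    let e₀ : ι ⊕ T → F := Sum.elim (fun x => -c x) fun j => b (some j) / b none
    let w : ι ⊕ T → K := Sum.elim u' fun j => z j
    have hw : ∀ i, w i ≠ 0 := by
      rintro (x | j)
      · exact hu' x
      · exact (hyz j j.2).1
    set W := v + ∑ j : T, algebraMap F K (b (some j) / b none) * y j with hWdef
    have hδW : ∀ δ : Derivation F K K,
        δ W = ∑ i, algebraMap F K (e₀ i) * (δ (w i) / w i) := fun δ => by
      have h := hb δ
      rw [Fintype.sum_option] at h
      have hN : algebraMap F K (b none) ≠ 0 := (map_ne_zero _).2 hnone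
      change algebraMap F K (b none) * (δ v + ∑ x, algebraMap F K (c x) * (δ (u' x) / u' x)) +
        ∑ j : T, algebraMap F K (b (some j)) * (δ (y j) - δ (z j) / z j) = 0 at h
      have h2 := congrArg (· / algebraMap F K (b none)) h
      simp only [zero_div, add_div, mul_div_cancel_left₀ _ hN, Finset.sum_div,
        mul_div_right_comm _ _ (algebraMap F K (b none))] at h2
      simp only [hWdef, map_add, map_sum, δ.leibniz, δ.map_algebraMap, smul_eq_mul, mul_zero,
        add_zero]
      simp only [Fintype.sum_sum_type, e₀, w, Sum.elim_inl, Sum.elim_inr, map_neg, neg_mul,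
        Finset.sum_neg_distrib, map_div₀]
      simp only [mul_sub, Finset.sum_sub_distrib] at h2
      linear_combination h2
    have haW : algebraMap F K a = W′ - ∑ i, algebraMap F K (e₀ i) * ((w i)′ / w i) := by
      have hbq : ∀ j : T, (algebraMap F K (b (some j) / b none))′ = 0 := fun j => by
        rw [deriv_algebraMap, Derivation.leibniz_div, hbc, hbc]
        simp
      have hd : ∀ j : T, (algebraMap F K (b (some j) / b none) * y j)′ =
          algebraMap F K (b (some j) / b none) * ((z j)′ / z j) := fun j => by
        rw [Derivation.leibniz, hbq, smul_zero, add_zero, smul_eq_mul, (hyz j j.2).2.1]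
      rw [hrel']
      simp only [hWdef, map_add, map_sum, hd, Fintype.sum_sum_type, e₀, w, Sum.elim_inl,
        Sum.elim_inr,
        map_neg, neg_mul, Finset.sum_neg_distrib, hlog]
      ring
    obtain ⟨m, f, M, hf, hfspan, hMe⟩ := exists_integral_basis e₀
    have hfc : ∀ k, (f k)′ = 0 := fun k => by
      have hec : ∀ i, (e₀ i)′ = 0 := by
        rintro (x | j)
        · simp [e₀, hc]
        · simp [e₀, Derivation.leibniz_div, hbc]
      suffices ∀ g ∈ Submodule.span ℚ (Set.range e₀), g′ = 0 from this _ (hfspan k)
      intro g hg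
      induction hg using Submodule.span_induction with
      | mem x hx => obtain ⟨i, rfl⟩ := hx; exact hec i
      | zero => exact map_zero _
      | add x x' _ _ hx hx' => rw [map_add, hx, hx', add_zero]
      | smul r x _ hx => rw [map_rat_smul, hx, smul_zero]
    let Z : Fin m → K := fun k => ∏ i, w i ^ M i k
    have hZ0 : ∀ k, Z k ≠ 0 := fun k => Finset.prod_ne_zero_iff.2 fun i _ => zpow_ne_zero _ (hw i)
    have hcomb : ∀ δ : K → K,
        (∀ k, δ (Z k) / Z k = ∑ i, (M i k : K) * (δ (w i) / w i)) →
        ∑ k, algebraMap F K (f k) * (δ (Z k) / Z k) =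
          ∑ i, algebraMap F K (e₀ i) * (δ (w i) / w i) := fun δ hlogδ => by
      simp only [hlogδ, hMe, map_sum, map_mul, map_intCast,
        Finset.sum_mul, Finset.mul_sum]
      rw [Finset.sum_comm]
      exact Finset.sum_congr rfl fun k _ => Finset.sum_congr rfl fun i _ => by ring
    have hδ : ∀ δ : Derivation F K K, ∑ k, f k • (δ (Z k) / Z k) = δ W := fun δ => by
      simp only [Algebra.smul_def]
      rw [hcomb δ fun k => derivation_prod_zpow δ w hw Finset.univ fun i => M i k, hδW δ]
    have hZalg : ∀ k, IsAlgebraic F (Z k) := fun k => rosenlicht f hf Z hZ0 W hδ k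
    have hWalg : IsAlgebraic F W := isAlgebraic_of_derivations fun δ => by
      rw [← hδ δ]
      exact Finset.sum_eq_zero fun k _ => by
        rw [constant_of_isAlgebraic δ (hZalg k), zero_div, smul_zero]
    set L := IntermediateField.adjoin F (insert W (Set.range Z))
    have : FiniteDimensional F L := by
      have : Finite (insert W (Set.range Z) : Set K) := Set.Finite.to_subtype
        ((Set.finite_range Z).insert W)
      refine IntermediateField.finiteDimensional_adjoin fun x hx => ?_
      rcases hx with rfl | ⟨k, rfl⟩
      · exact hWalg.isIntegral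
      · exact (hZalg k).isIntegral
    refine (isLiouville_of_finiteDimensional (F := F) (K := L)).isLiouville a (Fin m)
      (fun k => -f k) (fun k => by rw [map_neg, hfc, neg_zero])
      (fun k => ⟨Z k, IntermediateField.subset_adjoin F _ (Or.inr ⟨k, rfl⟩)⟩)
      ⟨W, IntermediateField.subset_adjoin F _ (Or.inl rfl)⟩ ?_
    apply (algebraMap L K).injective
    rw [← IsScalarTower.algebraMap_apply, haW, map_add (algebraMap L K),
      map_sum (algebraMap L K), ← deriv_algebraMap]
    have := hcomb (fun x => x′) fun k => derivation_prod_zpow Differential.deriv w hw Finset.univ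
      fun i => M i k
    rw [← this, sub_eq_add_neg, ← Finset.sum_neg_distrib, add_comm]
    refine congrArg (· + W′) (Finset.sum_congr rfl fun k _ => ?_)
    rw [map_mul, ← logDeriv_algebraMap, ← IsScalarTower.algebraMap_apply, map_neg, neg_mul]
    rfl

end Fermat.Agent.ElementaryIntegration
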